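import Fermat.Agent.Newform.OldSpan
import Fermat.Agent.RT.Wiring.EigBound

/-!
# P2, 6-NEW2: newness at `q` from `U_q² = 1`

`no_old`: let `q` be a prime with `q ∥ M`, `F ≠ 0` in `S₂(Γ₀(M))` with `U_q F = e F`, `e² = 1`,
`T_ℓ F = c_ℓ F` for almost all `ℓ`. Then the system `c` does not occur in `S₂(Γ₀(M/q))`.
(Otherwise `F = x + y|B_q` with `T_q x = b x`, `T_q y = b y`, so `e² - b e + q = 0` and
`|b| = q + 1`, contradiction with the trivial bound.)
-/

set_option autoImplicit false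

noncomputable section

open ModularForm CongruenceSubgroup UpperHalfPlane ModularFormClass Fermat.Agent.Newform
open scoped ModularForm MatrixGroups

namespace Fermat.Agent.P2.New2

theorem heckeU_diag {N q : ℕ} [NeZero N] {x : ℍ → ℂ} (hx : IsCF N 2 x) (hq : q ≠ 0) :
    heckeU 2 q (x ∣[(2 : ℤ)] heckeDiagMatrix q) = (q : ℂ) • x := by
  have hNq : NeZero (N * q) := ⟨mul_ne_zero (NeZero.ne N) hq⟩
  have h1 := hx.diag (N := N * q) hq dvd_rfl
  have hNqq : NeZero (N * q * q) := ⟨mul_ne_zero (NeZero.ne _) hq⟩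
  refine IsCF.ext (h1.heckeU' hq) (hx.smul _) fun n => ?_
  rw [h1.qCoeff_heckeU hq, hx.qCoeff_diag hq, if_pos (Dvd.intro_left n rfl),
    Nat.mul_div_cancel _ (Nat.pos_of_ne_zero hq), hx.qCoeff_smul]
  norm_num

/-- **The core of 6-NEW2.** -/
theorem no_old {M q : ℕ} [NeZero M] (hq : q.Prime) (hqM : q ∣ M) (hqq : ¬ q ∣ M / q) {S : Set ℕ}
    (hS : S.Finite) {c : ℕ → ℂ} {F : ℍ → ℂ} (hF : IsCF M 2 F) (hF0 : F ≠ 0) (hFc : Eig 2 S c F)
    {e : ℂ} (he : e ^ 2 = 1) (hU : heckeU 2 q F = e • F) {G : ℍ → ℂ} (hG : IsCF (M / q) 2 G)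
    (hGc : Eig 2 S c G) : G = 0 := by
  by_contra hG0
  have hM0 := NeZero.ne M
  have hMq : NeZero (M / q) :=
    ⟨(Nat.div_pos (Nat.le_of_dvd (NeZero.pos M) hqM) hq.pos).ne'⟩
  obtain ⟨g, hg, hgc⟩ := exists_eigenform_of_eig hG hG0 hGc
  obtain ⟨m, hm, h, hh, hhg⟩ := Oldform.exists_isNewform (NeZero.ne (M / q)) hg
  have hm0 : NeZero m := ⟨fun h0 => NeZero.ne (M / q) (by rw [h0] at hm; exact zero_dvd_iff.1 hm)⟩
  have hS' : (S ∪ badSet (M / q)).Finite := hS.union finite_badSet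
  have hF' : F ∈ eigSub 2 M (S ∪ badSet (M / q)) (qCoeff ⇑h) :=
    ⟨hF, (hFc.mono fun x hx => Or.inl hx).congr fun ℓ hℓ hℓS => by
      rw [hhg ℓ hℓ fun h' => hℓS (Or.inr h'),
        hgc ℓ hℓ (fun h' => hℓS (Or.inr h')) fun h' => hℓS (Or.inl h')]⟩
  obtain ⟨x, hx, y, hy, hFxy⟩ := exists_of_mem_eigSub hh hS' hq hqM hm hF'
  set b : ℂ := qCoeff ⇑h q with hb
  have hqb : q ∉ badSet (M / q) := hqq
  have hTx : heckeT 2 q x = b • x := hx.2 q hq hqb
  have hTy : heckeT 2 q y = b • y := hy.2 q hq hqb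
  have hUx : heckeU 2 q x = b • x - x ∣[(2 : ℤ)] heckeDiagMatrix q := by
    rw [← hTx, heckeT_eq_heckeU_add, add_sub_cancel_right]
  have hUy : heckeU 2 q y = b • y - y ∣[(2 : ℤ)] heckeDiagMatrix q := by
    rw [← hTy, heckeT_eq_heckeU_add, add_sub_cancel_right]
  have hU1 : heckeU 2 q F = heckeU 2 q x + (q : ℂ) • y := by
    rw [hFxy, heckeU_add, heckeU_diag hy.1 hq.ne_zero]
  have hU2 : heckeU 2 q (heckeU 2 q F) = b • heckeU 2 q F - (q : ℂ) • F := by
    rw [hU1, heckeU_add, heckeU_smul]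
    nth_rewrite 1 [hUx]
    rw [heckeU_sub, heckeU_smul, heckeU_diag hx.1 hq.ne_zero, hUy, hFxy, smul_add, smul_sub,
      smul_add]
    rw [smul_comm (q : ℂ) b y]
    abel
  have hquad : (e ^ 2 - b * e + q) • F = 0 := by
    rw [hU, heckeU_smul, hU, smul_smul, smul_smul] at hU2
    rw [add_smul, sub_smul, sq, hU2]
    abel
  have hquad' : e ^ 2 - b * e + q = 0 := (smul_eq_zero.mp hquad).resolve_right hF0
  rw [he] at hquad'
  have he0 : ‖e‖ = 1 := by
    have h1 : ‖e‖ ^ 2 = 1 := by rw [← norm_pow, he, norm_one]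
    exact (pow_eq_one_iff_of_nonneg (norm_nonneg e) two_ne_zero).mp h1
  have hnb : ‖b‖ = q + 1 := by
    have h1 : b * e = ((q + 1 : ℕ) : ℂ) := by
      push_cast
      linear_combination -hquad'
    have h2 := congrArg norm h1
    rw [norm_mul, he0, mul_one, Complex.norm_natCast] at h2
    rw [h2]
    push_cast
    ring
  have hbound : ∀ z : ℍ → ℂ, IsCF (M / q) 2 z → heckeT 2 q z = b • z → z = 0 := by
    intro z hz hzb
    by_contra hz0
    obtain ⟨Z, rfl⟩ := hz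
    have hZ0 : Z ≠ 0 := by
      rintro rfl
      exact hz0 rfl
    have := RT.Wiring.EigBound.norm_lt_of_heckeT_eq hZ0 hq.ne_zero hq.ne_one hzb
    rw [hnb] at this
    exact lt_irrefl _ this
  rw [hbound x hx.1 hTx, hbound y hy.1 hTy, SlashAction.zero_slash, add_zero] at hFxy
  exact hF0 hFxy

end Fermat.Agent.P2.New2
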