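import Fermat.Agent.P2.Defs
import Fermat.Agent.P2.New2.Core
import Fermat.Agent.CMP.CharExtend
import Fermat.Agent.CMP.Newness
import Fermat.Agent.GAL.StrongSupport

/-!
# P2, 6-NEW2: systems with `U_q² = 1` are new at `q`
-/

set_option autoImplicit false

noncomputable section

open ModularForm CongruenceSubgroup UpperHalfPlane ModularFormClass Fermat.Agent.Newform
open ModularCurve Fermat.Agent.HeckeDuality Fermat.Agent.S30Wiring
open scoped ModularForm MatrixGroups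

namespace Fermat.Agent.P2.New2

section Ring

/-- A domain of characteristic zero integral over `ℤ` embeds in `ℂ`. -/
theorem exists_embedding {D : Type*} [CommRing D] [IsDomain D] [CharZero D]
    (hint : ∀ x : D, (Int.castRingHom D).IsIntegralElem x) :
    ∃ i : D →+* ℂ, Function.Injective i := by
  have hD : Algebra.IsIntegral ℤ D := ⟨fun x => hint x⟩
  have hinj : Function.Injective (algebraMap ℤ D) := (algebraMap ℤ D).injective_int
  have : FaithfulSMul ℤ D := (faithfulSMul_iff_algebraMap_injective ℤ D).mpr hinj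
  have halg : Algebra.IsAlgebraic ℤ D := Algebra.IsIntegral.isAlgebraic
  let i : D →ₐ[ℤ] ℂ := IsAlgClosed.lift
  refine ⟨i, ?_⟩
  -- the kernel meets `ℤ` in zero
  rw [injective_iff_map_eq_zero]
  intro x hx
  by_contra hx0
  obtain ⟨a, ha0, ha⟩ := (halg.isAlgebraic x).exists_nonzero_dvd (mem_nonZeroDivisors_of_ne_zero hx0)
  obtain ⟨y, hy⟩ := ha
  have h1 : i (algebraMap ℤ D a) = 0 := by
    rw [hy, map_mul]
    have : i x = 0 := hx
    rw [this, zero_mul]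
  rw [i.commutes, eq_intCast] at h1
  exact ha0 (by exact_mod_cast h1)

/-- Extension of a character to an integral extension, after moving the values into `ℂ`. -/
theorem exists_char {A H K : Type*} [CommRing A] [CommRing H] [Field K] [CharZero K]
    (φ : A →+* H) (J : Ideal H) (I : Ideal A) (hI : ∀ x, x ∈ I ↔ φ x ∈ J)
    [hH : Algebra.IsIntegral ℤ H] (f : (A ⧸ I) →+* K) :
    ∃ ψ : H →+* ℂ, (∀ t ∈ J, ψ t = 0) ∧ ∀ x : A, f (Ideal.Quotient.mk I x) = 0 → ψ (φ x) = 0 := by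
  let ι : (A ⧸ I) →+* (H ⧸ J) :=
    Ideal.Quotient.lift I ((Ideal.Quotient.mk J).comp φ) fun x hx => by
      rw [RingHom.comp_apply, Ideal.Quotient.eq_zero_iff_mem]
      exact (hI x).mp hx
  have hι : ∀ x : A, ι (Ideal.Quotient.mk I x) = Ideal.Quotient.mk J (φ x) := fun x => rfl
  have hιinj : Function.Injective ι := by
    rw [injective_iff_map_eq_zero]
    intro z hz
    obtain ⟨x, rfl⟩ := Ideal.Quotient.mk_surjective z
    rw [hι, Ideal.Quotient.eq_zero_iff_mem] at hz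
    rw [Ideal.Quotient.eq_zero_iff_mem, hI]
    exact hz
  let _ : Algebra (A ⧸ I) (H ⧸ J) := ι.toAlgebra
  have hintB : Algebra.IsIntegral ℤ (H ⧸ J) := by
    refine ⟨fun z => ?_⟩
    obtain ⟨x, rfl⟩ := Ideal.Quotient.mk_surjective z
    exact (hH.isIntegral x).map (Ideal.Quotient.mk J).toIntAlgHom
  have hst : IsScalarTower ℤ (A ⧸ I) (H ⧸ J) :=
    IsScalarTower.of_algebraMap_eq' (RingHom.ext_int _ _)
  have hintA : Algebra.IsIntegral (A ⧸ I) (H ⧸ J) := Algebra.IsIntegral.tower_top ℤ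
  have hintA' : Algebra.IsIntegral ℤ (A ⧸ I) := by
    refine ⟨fun x => ?_⟩
    have h1 : IsIntegral ℤ (algebraMap (A ⧸ I) (H ⧸ J) x) := hintB.isIntegral _
    exact (isIntegral_algebraMap_iff hιinj).mp h1
  have hPprime : (RingHom.ker f).IsPrime := RingHom.ker_isPrime f
  have hchD : CharZero ((A ⧸ I) ⧸ RingHom.ker f) := by
    refine ⟨fun a b hab => ?_⟩
    have := congrArg (RingHom.kerLift f) hab
    rw [map_natCast, map_natCast] at this
    exact Nat.cast_injective this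
  have hintD : ∀ z : (A ⧸ I) ⧸ RingHom.ker f, (Int.castRingHom _).IsIntegralElem z := by
    intro z
    obtain ⟨x, rfl⟩ := Ideal.Quotient.mk_surjective z
    obtain ⟨P, hP, hPx⟩ := hintA'.isIntegral x
    refine ⟨P, hP, ?_⟩
    have h1 := congrArg (Ideal.Quotient.mk (RingHom.ker f)) hPx
    rw [Polynomial.hom_eval₂, map_zero] at h1
    rw [← h1]
    congr 1
  obtain ⟨i, hi⟩ := exists_embedding (D := (A ⧸ I) ⧸ RingHom.ker f) hintD
  let lam₀ : (A ⧸ I) →+* ℂ := i.comp (Ideal.Quotient.mk (RingHom.ker f))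
  have hlam₀ : ∀ z, f z = 0 → lam₀ z = 0 := fun z hz => by
    show i (Ideal.Quotient.mk (RingHom.ker f) z) = 0
    rw [Ideal.Quotient.eq_zero_iff_mem.mpr (RingHom.mem_ker.mpr hz), map_zero]
  obtain ⟨χ, hχ⟩ := CMP.CharExtend.exists_extend hιinj lam₀
  refine ⟨χ.comp (Ideal.Quotient.mk J), fun t ht => ?_, fun x hx => ?_⟩
  · rw [RingHom.comp_apply, Ideal.Quotient.eq_zero_iff_mem.mpr ht, map_zero]
  · have h1 : χ (ι (Ideal.Quotient.mk I x)) = lam₀ (Ideal.Quotient.mk I x) := by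
      rw [← hχ]; rfl
    rw [RingHom.comp_apply, ← hι, h1]
    exact hlam₀ _ hx

/-- A character of the image extends to an integral extension. -/
theorem exists_char_of_image {A H : Type*} [CommRing A] [CommRing H] (φ : A →+* H)
    [Algebra.IsIntegral ℤ H] (lam : A →+* ℂ) (hlam : ∀ x, φ x = 0 → lam x = 0) :
    ∃ χ : H →+* ℂ, ∀ x, χ (φ x) = lam x := by
  let lam₁ : φ.range →+* ℂ :=
    (Ideal.Quotient.lift (RingHom.ker φ) lam fun x hx => hlam x (RingHom.mem_ker.mp hx)).comp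
      (RingHom.quotientKerEquivRange φ).symm.toRingHom
  have hlam₁ : ∀ x : A, lam₁ (φ.rangeRestrict x) = lam x := by
    intro x
    have h1 : (RingHom.quotientKerEquivRange φ).symm (φ.rangeRestrict x) =
        Ideal.Quotient.mk (RingHom.ker φ) x := by
      rw [RingEquiv.symm_apply_eq]
      rfl
    show (Ideal.Quotient.lift (RingHom.ker φ) lam fun x hx => hlam x (RingHom.mem_ker.mp hx))
      ((RingHom.quotientKerEquivRange φ).symm (φ.rangeRestrict x)) = _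
    rw [h1, Ideal.Quotient.lift_mk]
  have hst' : IsScalarTower ℤ φ.range H := IsScalarTower.of_algebraMap_eq' (RingHom.ext_int _ _)
  have hintR : Algebra.IsIntegral φ.range H := Algebra.IsIntegral.tower_top ℤ
  obtain ⟨χ, hχ⟩ := CMP.CharExtend.exists_extend
    (A := φ.range) (B := H) Subtype.val_injective lam₁
  refine ⟨χ, fun x => ?_⟩
  rw [← hlam₁, ← hχ]
  rfl

end Ring

/-- **Newness at `q`**, general form: `V ⊆ S₂(Γ₀(M))` a subspace on which `U_q² = 1`, `q ∥ M`, `I`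
the annihilator of `V` in the anemic algebra, `f` a system of eigenvalues of `anem M / I` with
values in a field of characteristic zero. Then some `x ∈ anem M` killing `S₂(Γ₀(M/q))` has
`f x ≠ 0`. -/
theorem exists_new {M q : ℕ} [NeZero M] [NeZero (M / q)] (hq : q.Prime) (hqM : q ∣ M)
    (hqq : ¬ q ∣ M / q) (V : Submodule ℂ (CuspForm (Gamma0 M) 2))
    (hV : ∀ g ∈ V, ((CuspForm.heckeEvalForms M 2 (heckeGen ⟨q, hq⟩ * heckeGen ⟨q, hq⟩) :
      CuspForm.heckeAlgebra M 2 ∅) : Module.End ℂ (CuspForm (Gamma0 M) 2)) g = g)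
    (I : Ideal (anem M)) (hI : ∀ x : anem M, x ∈ I ↔ ∀ g ∈ V,
      ((CuspForm.heckeEvalForms M 2 x : CuspForm.heckeAlgebra M 2 ∅) :
        Module.End ℂ (CuspForm (Gamma0 M) 2)) g = 0)
    {K : Type*} [Field K] [CharZero K] (f : (anem M ⧸ I) →+* K) :
    ∃ x : anem M, CuspForm.heckeEvalForms (M / q) 2 x = 0 ∧ f (Ideal.Quotient.mk I x) ≠ 0 := by
  by_contra hcon
  push Not at hcon
  -- the full Hecke algebra of `V`
  let J : Ideal (CuspForm.heckeAlgebra M 2 ∅) :=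
    { carrier := {t | ∀ g ∈ V, (t : Module.End ℂ (CuspForm (Gamma0 M) 2)) g = 0}
      zero_mem' := fun g _ => by rw [ZeroMemClass.coe_zero, LinearMap.zero_apply]
      add_mem' := fun {x y} hx hy g hg => by
        rw [AddMemClass.coe_add, LinearMap.add_apply, hx g hg, hy g hg, add_zero]
      smul_mem' := fun c x hx g hg => by
        rw [smul_eq_mul, MulMemClass.coe_mul, Module.End.mul_apply, hx g hg, map_zero] }
  have hJ : ∀ t, t ∈ J ↔ ∀ g ∈ V, (t : Module.End ℂ (CuspForm (Gamma0 M) 2)) g = 0 :=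
    fun t => Iff.rfl
  let φ : anem M →+* CuspForm.heckeAlgebra M 2 ∅ :=
    (CuspForm.heckeEvalForms M 2).comp (anem M).val.toRingHom
  have hφ : ∀ x : anem M, φ x = CuspForm.heckeEvalForms M 2 x := fun x => rfl
  have hIJ : ∀ x : anem M, x ∈ I ↔ φ x ∈ J := fun x => hI x
  have hfinM : Module.Finite ℤ (CuspForm.heckeAlgebra M 2 ∅) := S22.result M 2 ∅
  have hintM : Algebra.IsIntegral ℤ (CuspForm.heckeAlgebra M 2 ∅) :=
    Algebra.IsIntegral.of_finite ℤ _
  obtain ⟨ψ, hψJ, hψ⟩ := exists_char φ J I hIJ f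
  obtain ⟨F, hF, -, hFa⟩ := exists_eigenform_of_ringHom (IntStr.hasIntegralStructure M 2) ψ
  have hgenM : ∀ ℓ : Nat.Primes, CuspForm.heckeEvalForms M 2 (heckeGen ℓ) = gen M 2 ℓ.2 := by
    intro ℓ
    rw [gen]
    split_ifs with h
    · exact CuspForm.heckeEvalForms_heckeGen_of_dvd h
    · exact CuspForm.heckeEvalForms_heckeGen_of_not_dvd h
  -- `U_q F = ± F`
  have he : (qCoeff ⇑F q) ^ 2 = 1 := by
    have h1 : gen M 2 hq * gen M 2 hq - 1 ∈ J := by
      rw [hJ]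
      intro g hg
      have e1 : CuspForm.heckeEvalForms M 2 (heckeGen ⟨q, hq⟩ * heckeGen ⟨q, hq⟩) =
          gen M 2 hq * gen M 2 hq := by
        rw [map_mul]
        exact congrArg₂ (· * ·) (hgenM ⟨q, hq⟩) (hgenM ⟨q, hq⟩)
      have h3 : ((gen M 2 hq * gen M 2 hq : CuspForm.heckeAlgebra M 2 ∅) :
          Module.End ℂ (CuspForm (Gamma0 M) 2)) g = g := by
        rw [← e1]
        exact hV g hg
      rw [AddSubgroupClass.coe_sub, LinearMap.sub_apply, h3, OneMemClass.coe_one,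
        Module.End.one_apply, sub_self]
    have h3 := hψJ _ h1
    rw [map_sub, map_mul, map_one, sub_eq_zero] at h3
    rw [hFa q hq, sq, h3]
  have hU : heckeU 2 q ⇑F = qCoeff ⇑F q • ⇑F := Newform.heckeU_eq hF hq hqM
  -- the character of level `M / q`
  let φ' : anem M →+* CuspForm.heckeAlgebra (M / q) 2 ∅ :=
    (CuspForm.heckeEvalForms (M / q) 2).comp (anem M).val.toRingHom
  have hfinM' : Module.Finite ℤ (CuspForm.heckeAlgebra (M / q) 2 ∅) := S22.result (M / q) 2 ∅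
  have hintM' : Algebra.IsIntegral ℤ (CuspForm.heckeAlgebra (M / q) 2 ∅) :=
    Algebra.IsIntegral.of_finite ℤ _
  obtain ⟨χ', hχ'⟩ := exists_char_of_image φ' (ψ.comp φ) fun x hx => hψ x (hcon x hx)
  obtain ⟨G, hG, -, hGa⟩ := exists_eigenform_of_ringHom (IntStr.hasIntegralStructure (M / q) 2) χ'
  -- comparison
  have hcomp : ∀ ℓ : ℕ, ℓ.Prime → ¬ ℓ ∣ M → qCoeff ⇑G ℓ = qCoeff ⇑F ℓ := by
    intro ℓ hℓ hℓM
    have hℓM' : ¬ ℓ ∣ M / q := fun h => hℓM (h.trans (Nat.div_dvd_of_dvd hqM))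
    let x : anem M := ⟨heckeGen ⟨ℓ, hℓ⟩, Algebra.subset_adjoin ⟨⟨ℓ, hℓ⟩, hℓM, rfl⟩⟩
    have h1 : φ' x = gen (M / q) 2 hℓ := by
      show CuspForm.heckeEvalForms (M / q) 2 (heckeGen ⟨ℓ, hℓ⟩) = _
      rw [gen, dif_neg hℓM']
      exact CuspForm.heckeEvalForms_heckeGen_of_not_dvd (ℓ := ⟨ℓ, hℓ⟩) hℓM'
    rw [hGa ℓ hℓ, hFa ℓ hℓ, ← h1, hχ']
    exact congrArg ψ (hgenM ⟨ℓ, hℓ⟩)
  have hG0 : (⇑G : ℍ → ℂ) = 0 := by
    refine no_old hq hqM hqq (finite_badSet (N := M)) (isCF_coe F) ?_ (eig_of_eigenform hF) he hU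
      (isCF_coe G) (((eig_of_eigenform hG).mono fun p hp => ?_).congr fun ℓ hℓ hℓM =>
        hcomp ℓ hℓ hℓM)
    · intro h0
      have h1 := hF.qCoeff_one
      have h3 : F = 0 := DFunLike.coe_injective h0
      rw [h3] at h1
      have h4 : qCoeff (⇑(0 : CuspForm (Gamma0 M) 2)) 1 = 0 := by
        have h5 := (isCF_coe (0 : CuspForm (Gamma0 M) 2)).qCoeff_smul 0 1
        rw [zero_smul, zero_mul] at h5
        exact h5
      rw [h4] at h1
      exact zero_ne_one h1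
    · exact dvd_trans hp (Nat.div_dvd_of_dvd hqM)
  have h1 := hG.qCoeff_one
  have h3 : G = 0 := DFunLike.coe_injective hG0
  rw [h3] at h1
  have h4 : qCoeff (⇑(0 : CuspForm (Gamma0 (M / q)) 2)) 1 = 0 := by
    have h5 := (isCF_coe (0 : CuspForm (Gamma0 (M / q)) 2)).qCoeff_smul 0 1
    rw [zero_smul, zero_mul] at h5
    exact h5
  rw [h4] at h1
  exact zero_ne_one h1

/-- The systems of `signForms` are new at `2`. -/
theorem exists_new_two {M : ℕ} [NeZero M] [NeZero (M / 2)] (h2M : 2 ∣ M) (h4 : ¬ 2 ∣ M / 2)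
    (Q : Finset ℕ) (ε : ℕ → ℤ) {K : Type*} [Field K] [CharZero K]
    (f : (anem M ⧸ annForms M Q ε) →+* K) :
    ∃ x : anem M, CuspForm.heckeEvalForms (M / 2) 2 x = 0 ∧
      f (Ideal.Quotient.mk (annForms M Q ε) x) ≠ 0 :=
  exists_new Nat.prime_two h2M h4 (signForms M Q ε) (fun _ hg => hg.2) (annForms M Q ε)
    (fun _ => Iff.rfl) f

/-- The systems of `signForms` are new at the primes of `Q`. -/
theorem exists_new_of_mem {M q : ℕ} [NeZero M] [NeZero (M / q)] (hq : q.Prime) (hqM : q ∣ M)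
    (hqq : ¬ q ∣ M / q) (Q : Finset ℕ) (hqQ : q ∈ Q) (ε : ℕ → ℤ) (hε : ε q = 1 ∨ ε q = -1)
    {K : Type*} [Field K] [CharZero K] (f : (anem M ⧸ annForms M Q ε) →+* K) :
    ∃ x : anem M, CuspForm.heckeEvalForms (M / q) 2 x = 0 ∧
      f (Ideal.Quotient.mk (annForms M Q ε) x) ≠ 0 := by
  refine exists_new hq hqM hqq (signForms M Q ε) (fun g hg => ?_) (annForms M Q ε)
    (fun _ => Iff.rfl) f
  have h1 := hg.1 ⟨q, hq⟩ hqQ
  rw [map_mul, MulMemClass.coe_mul, Module.End.mul_apply, h1, map_smul, h1, smul_smul]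
  have h3 : (ε q : ℂ) * (ε q : ℂ) = 1 := by
    rcases hε with h | h <;> rw [h] <;> norm_num
  show ((ε q : ℂ) * (ε q : ℂ)) • g = g
  rw [h3, one_smul]

theorem heckeEvalForms_gen (N : ℕ) [NeZero N] (ℓ : Nat.Primes) :
    CuspForm.heckeEvalForms N 2 (heckeGen ℓ) = gen N 2 ℓ.2 := by
  rw [gen]
  split_ifs with h
  · exact CuspForm.heckeEvalForms_heckeGen_of_dvd h
  · exact CuspForm.heckeEvalForms_heckeGen_of_not_dvd h

theorem coe_ne_zero_of_eigenform {N : ℕ} [NeZero N] {H : CuspForm (Gamma0 N) 2}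
    (hH : H.IsNormalizedEigenform) : (⇑H : ℍ → ℂ) ≠ 0 := by
  intro h0
  have h1 := hH.qCoeff_one
  have h3 : H = 0 := DFunLike.coe_injective h0
  rw [h3] at h1
  have h4 : qCoeff (⇑(0 : CuspForm (Gamma0 N) 2)) 1 = 0 := by
    have h5 := (isCF_coe (0 : CuspForm (Gamma0 N) 2)).qCoeff_smul 0 1
    rw [zero_smul, zero_mul] at h5
    exact h5
  rw [h4] at h1
  exact zero_ne_one h1

/-- **Newness at `q` from `ψ(U_q)² = 1`**, for complex characters: some Hecke operator prime to `S`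
kills `S₂(Γ₀(M/q))` but not `ψ`. -/
theorem exists_new_core {M M' q : ℕ} [NeZero M] [NeZero M'] (hq : q.Prime) (hM : M = M' * q)
    (hqM' : ¬ q ∣ M') (S : Finset ℕ) (ψ : CuspForm.heckeAlgebra M 2 ∅ →+* ℂ)
    (hψ : ψ (CuspForm.heckeEvalForms M 2 (heckeGen ⟨q, hq⟩)) ^ 2 = 1) :
    ∃ t : AnemicAlg S, CuspForm.heckeEvalForms M' 2 (anemicIncl S t) = 0 ∧
      ψ (CuspForm.heckeEvalForms M 2 (anemicIncl S t)) ≠ 0 := by
  subst hM
  by_contra hcon
  push Not at hcon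
  obtain ⟨F, hF, -, hFa⟩ :=
    exists_eigenform_of_ringHom (IntStr.hasIntegralStructure (M' * q) 2) ψ
  have hqN : q ∣ M' * q := Dvd.intro_left M' rfl
  have hdiv : M' * q / q = M' := Nat.mul_div_cancel M' hq.pos
  have he : (qCoeff ⇑F q) ^ 2 = 1 := by
    rw [hFa q hq, ← hψ]
    exact congrArg (fun z => ψ z ^ 2) (heckeEvalForms_gen (M' * q) ⟨q, hq⟩).symm
  have hU : heckeU 2 q ⇑F = qCoeff ⇑F q • ⇑F := Newform.heckeU_eq hF hq hqN
  have hfinM' : Module.Finite ℤ (CuspForm.heckeAlgebra M' 2 ∅) := S22.result M' 2 ∅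
  have hintM' : Algebra.IsIntegral ℤ (CuspForm.heckeAlgebra M' 2 ∅) :=
    Algebra.IsIntegral.of_finite ℤ _
  obtain ⟨χ', hχ'⟩ := exists_char_of_image
    ((CuspForm.heckeEvalForms M' 2).comp (anemicIncl S).toRingHom)
    (ψ.comp ((CuspForm.heckeEvalForms (M' * q) 2).comp (anemicIncl S).toRingHom))
    (fun t ht => hcon t ht)
  obtain ⟨G, hG, -, hGa⟩ := exists_eigenform_of_ringHom (IntStr.hasIntegralStructure M' 2) χ'
  have hcomp : ∀ ℓ : ℕ, ℓ.Prime → ℓ ∉ S → qCoeff ⇑G ℓ = qCoeff ⇑F ℓ := by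
    intro ℓ hℓ hℓS
    have h1 := hχ' (MvPolynomial.X ⟨⟨ℓ, hℓ⟩, hℓS⟩)
    have h3 : anemicIncl S (MvPolynomial.X ⟨⟨ℓ, hℓ⟩, hℓS⟩) = heckeGen ⟨ℓ, hℓ⟩ :=
      MvPolynomial.rename_X _ _
    have h4 : χ' (CuspForm.heckeEvalForms M' 2 (heckeGen ⟨ℓ, hℓ⟩)) =
        ψ (CuspForm.heckeEvalForms (M' * q) 2 (heckeGen ⟨ℓ, hℓ⟩)) := by
      rw [← h3]; exact h1
    rw [hGa ℓ hℓ, hFa ℓ hℓ]
    exact (congrArg χ' (heckeEvalForms_gen M' ⟨ℓ, hℓ⟩)).symm.trans
      (h4.trans (congrArg ψ (heckeEvalForms_gen (M' * q) ⟨ℓ, hℓ⟩)))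
  refine coe_ne_zero_of_eigenform hG ?_
  have hE1 : Eig 2 ((↑S : Set ℕ) ∪ Newform.badSet (M' * q)) (qCoeff ⇑F) ⇑F :=
    (eig_of_eigenform hF).mono fun x hx => Or.inr hx
  have hE2 : Eig 2 ((↑S : Set ℕ) ∪ Newform.badSet (M' * q)) (qCoeff ⇑F) ⇑G :=
    ((eig_of_eigenform hG).mono fun x hx => Or.inr (dvd_trans hx (Nat.dvd_mul_right M' q))).congr
      fun ℓ hℓ hℓS => hcomp ℓ hℓ fun h => hℓS (Or.inl (Finset.mem_coe.mpr h))
  refine no_old (M := M' * q) hq hqN (by rw [hdiv]; exact hqM')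
    ((Finset.finite_toSet S).union finite_badSet) (isCF_coe F) (coe_ne_zero_of_eigenform hF)
    hE1 he hU ?_ hE2
  rw [hdiv]
  exact isCF_coe G

/-- Complex characters killing the kernel of a given one. -/
theorem exists_char_ker {H K : Type*} [CommRing H] [Field K] [CharZero K]
    [Algebra.IsIntegral ℤ H] (χ : H →+* K) : ∃ ψ : H →+* ℂ, ∀ t, χ t = 0 → ψ t = 0 := by
  obtain ⟨ψ, hψJ, -⟩ := exists_char (RingHom.id H) (RingHom.ker χ) (RingHom.ker χ)
    (fun _ => Iff.rfl) (Ideal.Quotient.lift (RingHom.ker χ) χ fun _ h => RingHom.mem_ker.mp h)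
  exact ⟨ψ, fun t ht => hψJ t (RingHom.mem_ker.mpr ht)⟩

/-- **Newness at `q` from `χ(U_q)² = 1`**, for a character of the full Hecke algebra of level
`M = M' q`, `q ∤ M'`, with values in a domain of characteristic zero; `S` an arbitrary finite set
of primes. -/
theorem exists_new_full {M M' q : ℕ} [NeZero M] [NeZero M'] (hq : q.Prime) (hM : M = M' * q)
    (hqM' : ¬ q ∣ M') (S : Finset ℕ) {𝒪 : Type*} [CommRing 𝒪] [IsDomain 𝒪] [CharZero 𝒪]
    (χ : CuspForm.heckeAlgebra M 2 ∅ →+* 𝒪)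
    (hχ : χ (CuspForm.heckeEvalForms M 2 (heckeGen ⟨q, hq⟩)) ^ 2 = 1) :
    ∃ t : AnemicAlg S, CuspForm.heckeEvalForms M' 2 (anemicIncl S t) = 0 ∧
      χ (CuspForm.heckeEvalForms M 2 (anemicIncl S t)) ≠ 0 := by
  have hfinM : Module.Finite ℤ (CuspForm.heckeAlgebra M 2 ∅) := S22.result M 2 ∅
  have hintM : Algebra.IsIntegral ℤ (CuspForm.heckeAlgebra M 2 ∅) :=
    Algebra.IsIntegral.of_finite ℤ _
  have hK : CharZero (FractionRing 𝒪) :=
    charZero_of_injective_algebraMap (IsFractionRing.injective 𝒪 (FractionRing 𝒪))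
  obtain ⟨ψ, hψ⟩ := exists_char_ker ((algebraMap 𝒪 (FractionRing 𝒪)).comp χ)
  have hψ' : ∀ t, χ t = 0 → ψ t = 0 := fun t ht => hψ t (by rw [RingHom.comp_apply, ht, map_zero])
  obtain ⟨t, ht, ht'⟩ := exists_new_core hq hM hqM' S ψ (by
    have h1 := hψ' (CuspForm.heckeEvalForms M 2 (heckeGen ⟨q, hq⟩) ^ 2 - 1)
      (by rw [map_sub, map_pow, hχ, map_one, sub_self])
    rw [map_sub, map_pow, map_one, sub_eq_zero] at h1
    exact h1)
  exact ⟨t, ht, fun h => ht' (hψ' _ h)⟩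

/-- **Newness at `p` from `χ(U_p)² = 1`**, level `M p`, in the form used by
`DR.OrdAll.exists_stRel_of_new`: `π` is the restriction of `χ` to the anemic Hecke algebra. -/
theorem exists_new_anemic {M p : ℕ} [NeZero M] [NeZero (M * p)] (hp : p.Prime) (hpM : ¬ p ∣ M)
    {S : Finset ℕ} (hMS : ∀ q : ℕ, q.Prime → q ∣ M → q ∈ S)
    (hNS : ∀ q : ℕ, q.Prime → q ∣ M * p → q ∈ S) {𝒪 : Type*} [CommRing 𝒪] [IsDomain 𝒪]
    [CharZero 𝒪] (χ : CuspForm.heckeAlgebra (M * p) 2 ∅ →+* 𝒪)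
    (π : CuspForm.heckeAlgebra (M * p) 2 (↑S : Set ℕ) →+* 𝒪)
    (hext : ∀ t : AnemicAlg S, χ (CuspForm.heckeEvalForms (M * p) 2 (anemicIncl S t)) =
      π (anemicEval hNS t))
    (hχ : χ (CuspForm.heckeEvalForms (M * p) 2 (heckeGen ⟨p, hp⟩)) ^ 2 = 1) :
    ∃ t : AnemicAlg S, anemicEval (N := M) hMS t = 0 ∧ π (anemicEval hNS t) ≠ 0 := by
  obtain ⟨t, ht, ht'⟩ := exists_new_full hp rfl hpM S χ hχ
  exact ⟨t, GAL.StrongSupport.anemicEval_eq_zero hMS t ht, by rwa [← hext]⟩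

/-- `anemicIncl S t` is anemic. -/
theorem anemicIncl_mem_anem {M : ℕ} {S : Finset ℕ} (hMS : ∀ q : ℕ, q.Prime → q ∣ M → q ∈ S)
    (t : AnemicAlg S) : anemicIncl S t ∈ anem M := by
  induction t using MvPolynomial.induction_on with
  | C n =>
    rw [anemicIncl, MvPolynomial.rename_C]
    exact Subalgebra.algebraMap_mem _ n
  | add a b ha hb => rw [map_add]; exact add_mem ha hb
  | mul_X a ℓ ha =>
    rw [map_mul]
    refine mul_mem ha ?_
    rw [anemicIncl, MvPolynomial.rename_X]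
    exact Algebra.subset_adjoin ⟨ℓ.1, fun h => ℓ.2 (hMS _ ℓ.1.2 h), rfl⟩

/-- The system of eigenvalues with values in a quotient of `anem M` that lives on a space `V` on
which `U_q² = 1` is `q`-new, in terms of the polynomial algebra `AnemicAlg S`, for any finite set
`S` of primes containing those dividing `M`. -/
theorem exists_new_system {M M' q : ℕ} [NeZero M] [NeZero M'] (hq : q.Prime) (hM : M = M' * q)
    (hqM' : ¬ q ∣ M') (V : Submodule ℂ (CuspForm (Gamma0 M) 2))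
    (hV : ∀ g ∈ V, ((CuspForm.heckeEvalForms M 2 (heckeGen ⟨q, hq⟩ * heckeGen ⟨q, hq⟩) :
      CuspForm.heckeAlgebra M 2 ∅) : Module.End ℂ (CuspForm (Gamma0 M) 2)) g = g)
    (I : Ideal (anem M)) (hI : ∀ x : anem M, x ∈ I ↔ ∀ g ∈ V,
      ((CuspForm.heckeEvalForms M 2 x : CuspForm.heckeAlgebra M 2 ∅) :
        Module.End ℂ (CuspForm (Gamma0 M) 2)) g = 0)
    {𝒪 : Type*} [CommRing 𝒪] [IsDomain 𝒪] [CharZero 𝒪] (f : (anem M ⧸ I) →+* 𝒪)
    {S : Finset ℕ} (hMS : ∀ q : ℕ, q.Prime → q ∣ M → q ∈ S) :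
    ∃ t : AnemicAlg S, CuspForm.heckeEvalForms M' 2 (anemicIncl S t) = 0 ∧
      f (Ideal.Quotient.mk I ⟨anemicIncl S t, anemicIncl_mem_anem hMS t⟩) ≠ 0 := by
  let J : Ideal (CuspForm.heckeAlgebra M 2 ∅) :=
    { carrier := {t | ∀ g ∈ V, (t : Module.End ℂ (CuspForm (Gamma0 M) 2)) g = 0}
      zero_mem' := fun g _ => by rw [ZeroMemClass.coe_zero, LinearMap.zero_apply]
      add_mem' := fun {x y} hx hy g hg => by
        rw [AddMemClass.coe_add, LinearMap.add_apply, hx g hg, hy g hg, add_zero]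
      smul_mem' := fun c x hx g hg => by
        rw [smul_eq_mul, MulMemClass.coe_mul, Module.End.mul_apply, hx g hg, map_zero] }
  have hJ : ∀ t, t ∈ J ↔ ∀ g ∈ V, (t : Module.End ℂ (CuspForm (Gamma0 M) 2)) g = 0 :=
    fun t => Iff.rfl
  let φ : anem M →+* CuspForm.heckeAlgebra M 2 ∅ :=
    (CuspForm.heckeEvalForms M 2).comp (anem M).val.toRingHom
  have hφ : ∀ x : anem M, φ x = CuspForm.heckeEvalForms M 2 x := fun x => rfl
  have hIJ : ∀ x : anem M, x ∈ I ↔ φ x ∈ J := fun x => hI x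
  have hfinM : Module.Finite ℤ (CuspForm.heckeAlgebra M 2 ∅) := S22.result M 2 ∅
  have hintM : Algebra.IsIntegral ℤ (CuspForm.heckeAlgebra M 2 ∅) :=
    Algebra.IsIntegral.of_finite ℤ _
  have hK : CharZero (FractionRing 𝒪) :=
    charZero_of_injective_algebraMap (IsFractionRing.injective 𝒪 (FractionRing 𝒪))
  obtain ⟨ψ, hψJ, hψ⟩ := exists_char φ J I hIJ ((algebraMap 𝒪 (FractionRing 𝒪)).comp f)
  obtain ⟨t, ht, ht'⟩ := exists_new_core hq hM hqM' S ψ (by
    have h1 : CuspForm.heckeEvalForms M 2 (heckeGen ⟨q, hq⟩ * heckeGen ⟨q, hq⟩) - 1 ∈ J := by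
      rw [hJ]
      intro g hg
      rw [AddSubgroupClass.coe_sub, LinearMap.sub_apply, hV g hg, OneMemClass.coe_one,
        Module.End.one_apply, sub_self]
    have h3 := hψJ _ h1
    rw [map_sub, map_mul, map_mul, map_one, sub_eq_zero, ← sq] at h3
    exact h3)
  exact ⟨t, ht, fun h => ht' (hψ ⟨anemicIncl S t, anemicIncl_mem_anem hMS t⟩
    (by rw [RingHom.comp_apply, h, map_zero]))⟩

/-- The systems of `signForms` are new at `2` (polynomial algebra version). -/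
theorem exists_new_two_anemic {M M' : ℕ} [NeZero M] [NeZero M'] (hM : M = M' * 2)
    (h2M' : ¬ 2 ∣ M') (Q : Finset ℕ) (ε : ℕ → ℤ) {𝒪 : Type*} [CommRing 𝒪] [IsDomain 𝒪]
    [CharZero 𝒪] (f : (anem M ⧸ annForms M Q ε) →+* 𝒪)
    {S : Finset ℕ} (hMS : ∀ q : ℕ, q.Prime → q ∣ M → q ∈ S) :
    ∃ t : AnemicAlg S, CuspForm.heckeEvalForms M' 2 (anemicIncl S t) = 0 ∧
      f (Ideal.Quotient.mk (annForms M Q ε) ⟨anemicIncl S t, anemicIncl_mem_anem hMS t⟩) ≠ 0 :=
  exists_new_system Nat.prime_two hM h2M' (signForms M Q ε) (fun _ hg => hg.2) (annForms M Q ε)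
    (fun _ => Iff.rfl) f hMS

end Fermat.Agent.P2.New2
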